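/-
Project BAD, layer L-MOD, block INPUT, node IN-1: from the modular equation to `Rel`.
-/
import Mathlib
import Fermat.Agent.S18.Defs
import Fermat.Agent.S36.BP.Defs
import Fermat.Agent.BAD.Model.Defs

set_option autoImplicit false

noncomputable section

namespace Fermat.Agent.BAD.Model

open Fermat.Agent.S18 Fermat.Agent.S36.BP IntermediateField Polynomial

variable {K₀ F : Type*} [Field K₀] [Field F] [Algebra K₀ F]
variable {A₀ : ValuationSubring K₀} {q : ℕ}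

/-! ### IN-1 `BAD/Model/Input/Rel.lean` -/

theorem rel_pow_aux {j : F} (hj : j ≠ 0) {a : ℕ} (ha : a ≤ q) :
    j⁻¹ ^ (q + 1) * j ^ a = j⁻¹ * j⁻¹ ^ (q - a) := by
  have h1 : q + 1 = (q - a) + 1 + a := by omega
  have h2 : j⁻¹ ^ a * j ^ a = 1 := by rw [← mul_pow, inv_mul_cancel₀ hj, one_pow]
  calc j⁻¹ ^ (q + 1) * j ^ a = j⁻¹ ^ ((q - a) + 1 + a) * j ^ a := by rw [← h1]
    _ = j⁻¹ ^ (q - a) * j⁻¹ * (j⁻¹ ^ a * j ^ a) := by rw [pow_add, pow_succ]; ring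
    _ = _ := by rw [h2]; ring

theorem eps_reflect (c' : ℕ → ℕ → K₀) (S T : F) :
    eps q (fun a b => c' (q - a) (q - b)) S T =
      ∑ a ∈ Finset.range (q + 1), ∑ b ∈ Finset.range (q + 1),
        algebraMap K₀ F (c' a b) * S ^ (q - a) * T ^ (q - b) := by
  unfold eps
  rw [← Finset.sum_range_reflect]
  refine Finset.sum_congr rfl fun a ha => ?_
  rw [← Finset.sum_range_reflect]
  refine Finset.sum_congr rfl fun b hb => ?_
  have ha' : a ≤ q := Nat.lt_succ_iff.1 (Finset.mem_range.1 ha)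
  have hb' : b ≤ q := Nat.lt_succ_iff.1 (Finset.mem_range.1 hb)
  have h1 : q + 1 - 1 - a = q - a := by omega
  have h2 : q + 1 - 1 - b = q - b := by omega
  have h3 : q - (q - a) = a := by omega
  have h4 : q - (q - b) = b := by omega
  rw [h1, h2]
  show algebraMap K₀ F (c' (q - (q - a)) (q - (q - b))) * S ^ (q - a) * T ^ (q - b) = _
  rw [h3, h4]

/-- from the modular equation `Φ(j, j') = 0`, `Φ = X^(q+1) + Y^(q+1) + ∑_{a,b ≤ q} c' a b X^a Y^b`. -/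
theorem rel_of_modEq {c' : ℕ → ℕ → K₀} {j j' : F} (hj : j ≠ 0) (hj' : j' ≠ 0)
    (h : j ^ (q + 1) + j' ^ (q + 1) + ∑ a ∈ Finset.range (q + 1), ∑ b ∈ Finset.range (q + 1),
      algebraMap K₀ F (c' a b) * j ^ a * j' ^ b = 0) :
    Rel q (fun a b => c' (q - a) (q - b)) j⁻¹ j'⁻¹ := by
  unfold Rel
  rw [eps_reflect]
  have h1 : j⁻¹ ^ (q + 1) * j ^ (q + 1) = 1 := by rw [← mul_pow, inv_mul_cancel₀ hj, one_pow]
  have h2 : j'⁻¹ ^ (q + 1) * j' ^ (q + 1) = 1 := by rw [← mul_pow, inv_mul_cancel₀ hj', one_pow]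
  have h3 : j⁻¹ * j'⁻¹ * ∑ a ∈ Finset.range (q + 1), ∑ b ∈ Finset.range (q + 1),
        algebraMap K₀ F (c' a b) * j⁻¹ ^ (q - a) * j'⁻¹ ^ (q - b) =
      j⁻¹ ^ (q + 1) * j'⁻¹ ^ (q + 1) * ∑ a ∈ Finset.range (q + 1), ∑ b ∈ Finset.range (q + 1),
        algebraMap K₀ F (c' a b) * j ^ a * j' ^ b := by
    rw [Finset.mul_sum, Finset.mul_sum]
    refine Finset.sum_congr rfl fun a ha => ?_
    rw [Finset.mul_sum, Finset.mul_sum]
    refine Finset.sum_congr rfl fun b hb => ?_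
    have ha' : a ≤ q := Nat.lt_succ_iff.1 (Finset.mem_range.1 ha)
    have hb' : b ≤ q := Nat.lt_succ_iff.1 (Finset.mem_range.1 hb)
    calc j⁻¹ * j'⁻¹ * (algebraMap K₀ F (c' a b) * j⁻¹ ^ (q - a) * j'⁻¹ ^ (q - b))
        = algebraMap K₀ F (c' a b) * (j⁻¹ * j⁻¹ ^ (q - a)) * (j'⁻¹ * j'⁻¹ ^ (q - b)) := by ring
      _ = algebraMap K₀ F (c' a b) * (j⁻¹ ^ (q + 1) * j ^ a) * (j'⁻¹ ^ (q + 1) * j' ^ b) := by
          rw [rel_pow_aux hj ha', rel_pow_aux hj' hb']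
      _ = _ := by ring
  rw [h3]
  have h4 := congrArg (fun z => j⁻¹ ^ (q + 1) * j'⁻¹ ^ (q + 1) * z) h
  simp only [mul_zero] at h4
  rw [← h4]
  calc j⁻¹ ^ (q + 1) + j'⁻¹ ^ (q + 1) + j⁻¹ ^ (q + 1) * j'⁻¹ ^ (q + 1) *
        ∑ a ∈ Finset.range (q + 1), ∑ b ∈ Finset.range (q + 1),
          algebraMap K₀ F (c' a b) * j ^ a * j' ^ b
      = j⁻¹ ^ (q + 1) * (j'⁻¹ ^ (q + 1) * j' ^ (q + 1)) +
        j'⁻¹ ^ (q + 1) * (j⁻¹ ^ (q + 1) * j ^ (q + 1)) + j⁻¹ ^ (q + 1) * j'⁻¹ ^ (q + 1) *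
        ∑ a ∈ Finset.range (q + 1), ∑ b ∈ Finset.range (q + 1),
          algebraMap K₀ F (c' a b) * j ^ a * j' ^ b := by rw [h1, h2, mul_one, mul_one]
    _ = _ := by ring

theorem sum_delta_aux (n a₀ b₀ : ℕ) (ha : a₀ < n) (hb : b₀ < n) (g : ℕ → ℕ → F) :
    ∑ a ∈ Finset.range n, ∑ b ∈ Finset.range n, (if a = a₀ ∧ b = b₀ then g a b else 0) =
      g a₀ b₀ := by
  rw [Finset.sum_eq_single a₀, Finset.sum_eq_single b₀]
  · simp
  · intro b _ hb'
    simp [hb']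
  · intro h
    exact absurd (Finset.mem_range.2 hb) h
  · intro a _ ha'
    simp [ha']
  · intro h
    exact absurd (Finset.mem_range.2 ha) h

theorem valuation_unif_lt_one {ϖ : K₀} (h : IsUnif A₀ ϖ) : A₀.valuation ϖ < 1 := by
  have h1 : A₀.valuation ϖ ≤ 1 := (A₀.valuation_le_one_iff _).2 h.mem
  refine lt_of_le_of_ne h1 fun h2 => h.inv_notMem ?_
  rw [← A₀.valuation_le_one_iff, map_inv₀, h2, inv_one]

/-- from Kronecker's congruence `Φ = (X^q - Y)(X - Y^q) + q Ψ`, `deg_X Ψ, deg_Y Ψ ≤ q`. -/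
theorem exists_rel_of_kronecker (hb : BaseHyp A₀ q) {ψ : ℕ → ℕ → K₀} (hψ : ∀ a b, ψ a b ∈ A₀) :
    ∃ c : ℕ → ℕ → K₀, (∀ a b, c a b ∈ A₀) ∧ A₀.valuation (c 0 0) = 1 ∧
      ∀ j j' : F, j ≠ 0 → j' ≠ 0 →
        (j ^ q - j') * (j - j' ^ q) + (q : F) * ∑ a ∈ Finset.range (q + 1),
          ∑ b ∈ Finset.range (q + 1), algebraMap K₀ F (ψ a b) * j ^ a * j' ^ b = 0 →
        Rel q c j⁻¹ j'⁻¹ := by
  have hq1 : q ≠ 1 := hb.prime.ne_one
  have hq0 : 1 ≤ q := hb.prime.one_lt.le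
  let c' : ℕ → ℕ → K₀ := fun a b =>
    (if a = q ∧ b = q then -1 else 0) + (if a = 1 ∧ b = 1 then -1 else 0) + (q : K₀) * ψ a b
  have hc'mem : ∀ a b, c' a b ∈ A₀ := by
    intro a b
    refine add_mem (add_mem ?_ ?_) (mul_mem hb.unif.mem (hψ a b))
    · split_ifs
      · exact neg_mem (one_mem _)
      · exact zero_mem _
    · split_ifs
      · exact neg_mem (one_mem _)
      · exact zero_mem _
  refine ⟨fun a b => c' (q - a) (q - b), fun a b => hc'mem _ _, ?_, ?_⟩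
  · have h1 : c' (q - 0) (q - 0) = (q : K₀) * ψ q q + -1 := by
      simp only [c', Nat.sub_zero, and_self, if_true, hq1, if_false]
      ring
    show A₀.valuation (c' (q - 0) (q - 0)) = 1
    rw [h1]
    have h2 : A₀.valuation ((q : K₀) * ψ q q) < A₀.valuation (-1 : K₀) := by
      rw [Valuation.map_neg, map_one, map_mul]
      exact lt_of_le_of_lt (mul_le_of_le_one_right' ((A₀.valuation_le_one_iff _).2 (hψ q q)))
        (valuation_unif_lt_one hb.unif)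
    rw [Valuation.map_add_eq_of_lt_right _ h2, Valuation.map_neg, map_one]
  · intro j j' hj hj' h
    apply rel_of_modEq hj hj'
    have hterm : ∀ a b, algebraMap K₀ F (c' a b) * j ^ a * j' ^ b =
        (if a = q ∧ b = q then -(j ^ a * j' ^ b) else 0) +
        (if a = 1 ∧ b = 1 then -(j ^ a * j' ^ b) else 0) +
        (q : F) * (algebraMap K₀ F (ψ a b) * j ^ a * j' ^ b) := by
      intro a b
      simp only [c', map_add, map_mul, map_natCast]
      split_ifs <;> simp <;> ring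
    simp only [hterm, Finset.sum_add_distrib, ← Finset.mul_sum]
    rw [sum_delta_aux (q + 1) q q (Nat.lt_succ_self q) (Nat.lt_succ_self q)
        (fun a b => -(j ^ a * j' ^ b)),
      sum_delta_aux (q + 1) 1 1 (Nat.lt_succ_of_le hq0) (Nat.lt_succ_of_le hq0)
        (fun a b => -(j ^ a * j' ^ b))]
    rw [← h]
    ring

end Fermat.Agent.BAD.Model

end
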