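/-
Project BAD, layer L-MOD, node IN-3 (sub-architect helper38, proof helper282).
`GoodBelow` from a good chart (KL-A: `S18.IsChart`) of the lower level.
-/
import Mathlib
import Fermat.Agent.S18.Defs
import Fermat.Agent.S18.Chart.Unif
import Fermat.Agent.S36.BP.Defs
import Fermat.Agent.S36.BP.Rad
import Fermat.Agent.BAD.Model.Defs

set_option autoImplicit false

noncomputable section

namespace Fermat.Agent.BAD.Model

open Fermat.Agent.S18 Fermat.Agent.S36.BP IntermediateField Polynomial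

namespace GBAux

/-! ### Dedekind domains, elementary form of the local structure -/

/-- The localisation of a Dedekind domain at a prime is a valuation ring, in elementary form. -/
theorem ded_exists_cross {D : Type*} [CommRing D] [IsDedekindDomain D] (𝔭 : Ideal D) [𝔭.IsPrime]
    (a b : D) : ∃ c d : D, d ∉ 𝔭 ∧ (a * d = b * c ∨ b * d = a * c) := by
  by_cases hp : 𝔭 = ⊥
  · subst hp
    by_cases hb : b = 0
    · exact ⟨0, 1, by simp, Or.inr (by simp [hb])⟩
    · exact ⟨a, b, by simpa using hb, Or.inl (mul_comm _ _)⟩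
  · have : IsDiscreteValuationRing (Localization.AtPrime 𝔭) :=
      IsLocalization.AtPrime.isDiscreteValuationRing_of_dedekind_domain D hp _
    have hinj : Function.Injective (algebraMap D (Localization.AtPrime 𝔭)) :=
      IsLocalization.injective _ 𝔭.primeCompl_le_nonZeroDivisors
    obtain ⟨c, hc⟩ := ValuationRing.cond (algebraMap D (Localization.AtPrime 𝔭) a)
      (algebraMap D (Localization.AtPrime 𝔭) b)
    obtain ⟨c₀, d₀, rfl⟩ := IsLocalization.exists_mk'_eq 𝔭.primeCompl c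
    refine ⟨c₀, d₀, d₀.2, ?_⟩
    rcases hc with hc | hc
    · right
      apply hinj
      rw [map_mul, map_mul, ← hc, mul_assoc, IsLocalization.mk'_spec]
    · left
      apply hinj
      rw [map_mul, map_mul, ← hc, mul_assoc, IsLocalization.mk'_spec]

/-- The localisation of a Dedekind domain at a prime has a principal maximal ideal, in
elementary form. -/
theorem ded_exists_gen {D : Type*} [CommRing D] [IsDedekindDomain D] (𝔭 : Ideal D) [𝔭.IsPrime] :
    ∃ t ∈ 𝔭, ∀ c ∈ 𝔭, ∃ e f : D, f ∉ 𝔭 ∧ c * f = t * e := by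
  by_cases hp : 𝔭 = ⊥
  · subst hp
    refine ⟨0, by simp, fun c hc => ⟨0, 1, by simp, ?_⟩⟩
    rw [Ideal.mem_bot] at hc
    simp [hc]
  · have : IsDiscreteValuationRing (Localization.AtPrime 𝔭) :=
      IsLocalization.AtPrime.isDiscreteValuationRing_of_dedekind_domain D hp _
    have hinj : Function.Injective (algebraMap D (Localization.AtPrime 𝔭)) :=
      IsLocalization.injective _ 𝔭.primeCompl_le_nonZeroDivisors
    obtain ⟨π, hπ⟩ := IsDiscreteValuationRing.exists_irreducible (Localization.AtPrime 𝔭)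
    obtain ⟨t₀, s₀, rfl⟩ := IsLocalization.exists_mk'_eq 𝔭.primeCompl π
    have hs : IsUnit (algebraMap D (Localization.AtPrime 𝔭) s₀) :=
      IsLocalization.map_units _ s₀
    have ht : algebraMap D (Localization.AtPrime 𝔭) t₀ =
        IsLocalization.mk' (Localization.AtPrime 𝔭) t₀ s₀ *
          algebraMap D (Localization.AtPrime 𝔭) s₀ := (IsLocalization.mk'_spec _ _ _).symm
    have hmax := hπ.maximalIdeal_eq
    refine ⟨t₀, ?_, fun c hc => ?_⟩
    · rw [← IsLocalization.AtPrime.to_map_mem_maximal_iff (Localization.AtPrime 𝔭) 𝔭, hmax, ht]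
      exact Ideal.mul_mem_right _ _ (Ideal.mem_span_singleton_self _)
    · rw [← IsLocalization.AtPrime.to_map_mem_maximal_iff (Localization.AtPrime 𝔭) 𝔭, hmax,
        Ideal.mem_span_singleton] at hc
      obtain ⟨w, hw⟩ := hc
      obtain ⟨e₀, f₀, rfl⟩ := IsLocalization.exists_mk'_eq 𝔭.primeCompl w
      refine ⟨e₀, f₀ * s₀, (f₀ * s₀).2, ?_⟩
      apply hinj
      have h1 := IsLocalization.mk'_spec (Localization.AtPrime 𝔭) e₀ f₀
      rw [map_mul, map_mul, map_mul, hw, ht, ← h1]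
      ring

/-- The two previous lemmas, upstairs. -/
theorem quot_exists_cross {B : Type*} [CommRing B] (I 𝔫 : Ideal B) [IsDedekindDomain (B ⧸ I)]
    [𝔫.IsPrime] (hI : I ≤ 𝔫) (a b : B) :
    ∃ c d : B, d ∉ 𝔫 ∧ (a * d - b * c ∈ I ∨ b * d - a * c ∈ I) := by
  have : (𝔫.map (Ideal.Quotient.mk I)).IsPrime :=
    Ideal.map_isPrime_of_surjective Ideal.Quotient.mk_surjective (by rwa [Ideal.mk_ker])
  obtain ⟨c, d, hd, h⟩ := ded_exists_cross (𝔫.map (Ideal.Quotient.mk I))
    (Ideal.Quotient.mk I a) (Ideal.Quotient.mk I b)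
  obtain ⟨c, rfl⟩ := Ideal.Quotient.mk_surjective c
  obtain ⟨d, rfl⟩ := Ideal.Quotient.mk_surjective d
  refine ⟨c, d, fun hd' => hd (Ideal.mem_map_of_mem _ hd'), ?_⟩
  simpa only [← map_mul, Ideal.Quotient.eq] using h

theorem quot_exists_gen {B : Type*} [CommRing B] (I 𝔫 : Ideal B) [IsDedekindDomain (B ⧸ I)]
    [𝔫.IsPrime] (hI : I ≤ 𝔫) :
    ∃ t ∈ 𝔫, ∀ c ∈ 𝔫, ∃ e f : B, f ∉ 𝔫 ∧ c * f - t * e ∈ I := by
  have : (𝔫.map (Ideal.Quotient.mk I)).IsPrime :=
    Ideal.map_isPrime_of_surjective Ideal.Quotient.mk_surjective (by rwa [Ideal.mk_ker])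
  obtain ⟨t, ht, h⟩ := ded_exists_gen (𝔫.map (Ideal.Quotient.mk I))
  obtain ⟨t, rfl⟩ := Ideal.Quotient.mk_surjective t
  refine ⟨t, (Ideal.mem_quotient_iff_mem hI).mp ht, fun c hc => ?_⟩
  obtain ⟨e, f, hf, h⟩ := h _ (Ideal.mem_map_of_mem _ hc)
  obtain ⟨e, rfl⟩ := Ideal.Quotient.mk_surjective e
  obtain ⟨f, rfl⟩ := Ideal.Quotient.mk_surjective f
  refine ⟨e, f, fun hf' => hf (Ideal.mem_map_of_mem _ hf'), ?_⟩
  simpa only [← map_mul, Ideal.Quotient.eq] using h


/-! ### Comparison of valuations along `ι` -/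

section Comap

variable {F₀ F : Type*} [Field F₀] [Field F] (ι : F₀ →+* F) {Ow : ValuationSubring F₀}
  {W : ValuationSubring F} (hW : W.comap ι = Ow)

include hW in
theorem comap_val_le (y : F₀) : W.valuation (ι y) ≤ 1 ↔ Ow.valuation y ≤ 1 := by
  rw [ValuationSubring.valuation_le_one_iff, ValuationSubring.valuation_le_one_iff, ← hW,
    ValuationSubring.mem_comap]

include hW in
theorem comap_val_eq (y : F₀) : W.valuation (ι y) = 1 ↔ Ow.valuation y = 1 := by
  rw [val_eq_one_iff, val_eq_one_iff, ← hW, ValuationSubring.mem_comap,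
    ValuationSubring.mem_comap, map_inv₀, _root_.map_ne_zero]

include hW in
theorem comap_val_lt (y : F₀) : W.valuation (ι y) < 1 ↔ Ow.valuation y < 1 := by
  rw [lt_iff_le_and_ne, lt_iff_le_and_ne, comap_val_le ι hW, Ne, Ne, comap_val_eq ι hW]

end Comap

/-! ### The chart -/

section Chart

variable {F₀ : Type*} [Field F₀] {Ow : ValuationSubring F₀} {ϖ : F₀} {B₀ : Subring F₀}

theorem IsUnif_val_lt (hU : IsUnif Ow ϖ) : Ow.valuation ϖ < 1 := by
  rw [lt_iff_le_and_ne]
  refine ⟨(Ow.valuation_le_one_iff _).mpr hU.mem, fun h => ?_⟩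
  exact hU.inv_notMem (val_eq_one_iff.mp h).2.2

theorem val_lt_of_mem_span (hU : IsUnif Ow ϖ) (hB : IsChart Ow ϖ B₀) {b : B₀}
    (hb : b ∈ Ideal.span {(⟨ϖ, hB.unif_mem⟩ : B₀)}) : Ow.valuation (b : F₀) < 1 := by
  obtain ⟨a, rfl⟩ := Ideal.mem_span_singleton'.mp hb
  push_cast
  rw [map_mul]
  exact lt_of_le_of_lt (mul_le_of_le_one_left' ((Ow.valuation_le_one_iff _).mpr (hB.le _ a.2)))
    (IsUnif_val_lt hU)

end Chart

variable {K₀ F : Type*} [Field K₀] [Field F] [Algebra K₀ F]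
variable {A₀ : ValuationSubring K₀} {R : Subring F}

/-- The ideal of the chart `B₀` below the closed point `R`. -/
def belowIdeal {F₀ : Type*} [Field F₀] (ι : F₀ →+* F) {B₀ : Subring F₀} (hR : IsPt A₀ R)
    (hBR : ∀ b ∈ B₀, ι b ∈ R) : Ideal B₀ where
  carrier := {b | ι (b : F₀) ∈ rad R}
  add_mem' := by
    intro a b ha hb
    change ι ((a + b : B₀) : F₀) ∈ rad R
    push_cast
    rw [map_add]
    exact hR.add_rad _ ha _ hb
  zero_mem' := by
    change ι ((0 : B₀) : F₀) ∈ rad R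
    push_cast
    rw [map_zero]
    exact zero_mem_rad R
  smul_mem' := by
    intro c x hx
    change ι ((c * x : B₀) : F₀) ∈ rad R
    push_cast
    rw [map_mul]
    exact mul_mem_rad (hBR c c.2) hx

theorem mem_belowIdeal {F₀ : Type*} [Field F₀] (ι : F₀ →+* F) {B₀ : Subring F₀} (hR : IsPt A₀ R)
    (hBR : ∀ b ∈ B₀, ι b ∈ R) (b : B₀) : b ∈ belowIdeal ι hR hBR ↔ ι (b : F₀) ∈ rad R := Iff.rfl

theorem runit_of_notMem_belowIdeal {F₀ : Type*} [Field F₀] (ι : F₀ →+* F) {B₀ : Subring F₀}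
    (hR : IsPt A₀ R) (hBR : ∀ b ∈ B₀, ι b ∈ R) {b : B₀} (hb : b ∉ belowIdeal ι hR hBR) :
    RUnit R (ι (b : F₀)) :=
  (runit_or_mem_rad (hBR b b.2)).resolve_right hb

theorem belowIdeal_isPrime {F₀ : Type*} [Field F₀] (ι : F₀ →+* F) {B₀ : Subring F₀}
    (hR : IsPt A₀ R) (hBR : ∀ b ∈ B₀, ι b ∈ R) : (belowIdeal ι hR hBR).IsPrime where
  ne_top' := by
    rw [Ne, Ideal.eq_top_iff_one, mem_belowIdeal]
    push_cast
    rw [map_one]
    exact fun h => h.2 (RUnit.one R)
  mem_or_mem' := by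
    intro a b hab
    by_contra hcon
    rw [not_or] at hcon
    rw [mem_belowIdeal] at hab
    push_cast at hab
    rw [map_mul] at hab
    exact hab.2 ((runit_of_notMem_belowIdeal ι hR hBR hcon.1).mul
      (runit_of_notMem_belowIdeal ι hR hBR hcon.2))

section Main

variable {F₀ : Type*} [Field F₀] (ι : F₀ →+* F) {Ow : ValuationSubring F₀}
    {ϖ : F₀} {B₀ : Subring F₀} (hU : IsUnif Ow ϖ) (hB : IsChart Ow ϖ B₀) {W : ValuationSubring F}
    (hW : W.comap ι = Ow) (hR : IsPt A₀ R) (hle : ∀ r ∈ R, r ∈ W) (hBR : ∀ b ∈ B₀, ι b ∈ R)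

include hU hW hle in
theorem span_le_belowIdeal :
    Ideal.span {(⟨ϖ, hB.unif_mem⟩ : B₀)} ≤ belowIdeal ι hR hBR := by
  rw [Ideal.span_singleton_le_iff_mem, mem_belowIdeal]
  exact mem_rad_of_val_lt hle (hBR _ hB.unif_mem) ((comap_val_lt ι hW _).mpr (IsUnif_val_lt hU))

include hW hle in
theorem val_eq_one_of_notMem_belowIdeal {b : B₀} (hb : b ∉ belowIdeal ι hR hBR) :
    Ow.valuation (b : F₀) = 1 :=
  (comap_val_eq ι hW _).mp ((runit_of_notMem_belowIdeal ι hR hBR hb).val_eq_one hle)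

include hU hB hW hle in
/-- The key approximation: the image of `(B₀)_𝔫₀` in the residue field of `Ow` is a valuation
ring. -/
theorem exists_approx (y₀ : F₀) (hy : Ow.valuation y₀ = 1) :
    ∃ c d : B₀, d ∉ belowIdeal ι hR hBR ∧
      (Ow.valuation (y₀ - (c : F₀) / d) < 1 ∨ Ow.valuation (y₀⁻¹ - (c : F₀) / d) < 1) := by
  have hy0 : y₀ ≠ 0 := ne_zero_of_val_eq_one hy
  obtain ⟨b, hbB, hb0, hbinv, hab⟩ := hB.loc y₀ ((Ow.valuation_le_one_iff _).mp hy.le)
  have hvb : Ow.valuation b = 1 := val_eq_one_iff.mpr ⟨hb0, hB.le _ hbB, hbinv⟩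
  have := hB.ded ⟨ϖ, hB.unif_mem⟩ rfl
  have := belowIdeal_isPrime ι hR hBR
  obtain ⟨c, d, hd, h⟩ := quot_exists_cross (Ideal.span {(⟨ϖ, hB.unif_mem⟩ : B₀)})
    (belowIdeal ι hR hBR) (span_le_belowIdeal ι hU hB hW hR hle hBR) ⟨b * y₀, hab⟩ ⟨b, hbB⟩
  have hvd : Ow.valuation (d : F₀) = 1 := val_eq_one_of_notMem_belowIdeal ι hW hR hle hBR hd
  have hd0 : (d : F₀) ≠ 0 := ne_zero_of_val_eq_one hvd
  refine ⟨c, d, hd, ?_⟩
  rcases h with h | h
  · left
    have h1 := val_lt_of_mem_span hU hB h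
    push_cast at h1
    have e : y₀ - (c : F₀) / d = (b * y₀ * d - b * c) / (b * d) := by
      field_simp
    rw [e, map_div₀, map_mul, hvb, hvd, mul_one, div_one]
    exact h1
  · right
    have h1 := val_lt_of_mem_span hU hB h
    push_cast at h1
    have e : y₀⁻¹ - (c : F₀) / d = (b * d - b * y₀ * c) / (b * y₀ * d) := by
      field_simp
    rw [e, map_div₀, map_mul, map_mul, hvb, hvd, hy, mul_one, mul_one, div_one]
    exact h1

end Main

end GBAux

open GBAux

variable {K₀ F : Type*} [Field K₀] [Field F] [Algebra K₀ F]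
variable {A₀ : ValuationSubring K₀} {R : Subring F}

/-- `GoodBelow` from a good chart (KL-A: `S18.IsChart`) of the lower level. -/
theorem goodBelow_of_isChart {F₀ : Type*} [Field F₀] (ι : F₀ →+* F) {Ow : ValuationSubring F₀}
    {ϖ : F₀} {B₀ : Subring F₀} (hU : IsUnif Ow ϖ) (hB : IsChart Ow ϖ B₀) {W : ValuationSubring F}
    (hW : W.comap ι = Ow) (hd : ∀ y ∈ W, ∃ y₀ : F₀, W.valuation (ι y₀ - y) < 1)
    (hR : IsPt A₀ R) (hle : ∀ r ∈ R, r ∈ W) (hBR : ∀ b ∈ B₀, ι b ∈ R) :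
    GoodBelow W ι.fieldRange R := by
  have hquot : ∀ c d : B₀, d ∉ belowIdeal ι hR hBR → ι ((c : F₀) / d) ∈ R := by
    intro c d hd
    rw [map_div₀, div_eq_mul_inv]
    exact R.mul_mem (hBR c c.2) (runit_of_notMem_belowIdeal ι hR hBR hd).inv_mem
  refine ⟨?_, ?_, ?_⟩
  · intro y hy
    obtain ⟨y₀, h⟩ := hd y hy
    exact ⟨ι y₀, ⟨y₀, rfl⟩, h⟩
  · rintro _ ⟨y₀, rfl⟩ hy
    obtain ⟨c, d, hd, h⟩ := exists_approx ι hU hB hW hR hle hBR y₀ ((comap_val_eq ι hW _).mp hy)
    refine ⟨ι ((c : F₀) / d), hquot c d hd, ⟨_, rfl⟩, ?_⟩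
    rw [← map_inv₀, ← map_sub, ← map_sub, comap_val_lt ι hW, comap_val_lt ι hW]
    exact h
  · have := hB.ded ⟨ϖ, hB.unif_mem⟩ rfl
    have := belowIdeal_isPrime ι hR hBR
    obtain ⟨t₀, ht₀, hgen⟩ := quot_exists_gen (Ideal.span {(⟨ϖ, hB.unif_mem⟩ : B₀)})
      (belowIdeal ι hR hBR) (span_le_belowIdeal ι hU hB hW hR hle hBR)
    refine ⟨ι (t₀ : F₀), ht₀, ?_⟩
    rintro _ hyrad ⟨y₀, rfl⟩
    have hyW : W.valuation (ι y₀) ≤ 1 := (W.valuation_le_one_iff _).mpr (hle _ hyrad.1)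
    rcases hyW.lt_or_eq with hlt | heq
    · exact ⟨0, R.zero_mem, by rwa [zero_mul, sub_zero]⟩
    · obtain ⟨c, d, hd, h⟩ := exists_approx ι hU hB hW hR hle hBR y₀ ((comap_val_eq ι hW _).mp heq)
      have hηR := hquot c d hd
      have hvd : Ow.valuation (d : F₀) = 1 := val_eq_one_of_notMem_belowIdeal ι hW hR hle hBR hd
      have hd0 : (d : F₀) ≠ 0 := ne_zero_of_val_eq_one hvd
      have hy0 : y₀ ≠ 0 := ne_zero_of_val_eq_one ((comap_val_eq ι hW _).mp heq)
      rcases h with h | h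
      · -- `c ∈ 𝔫₀`
        have h1 : ι (y₀ - (c : F₀) / d) ∈ rad R := by
          refine mem_rad_of_val_lt hle ?_ ((comap_val_lt ι hW _).mpr h)
          rw [map_sub]
          exact R.sub_mem hyrad.1 hηR
        have h2 : ι ((c : F₀) / d) ∈ rad R := by
          have e : ι ((c : F₀) / d) = ι y₀ + -ι (y₀ - (c : F₀) / d) := by
            rw [map_sub]; ring
          rw [e]
          exact hR.add_rad _ hyrad _ (neg_mem_rad h1)
        have hc : c ∈ belowIdeal ι hR hBR := by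
          rw [mem_belowIdeal]
          have e : ι (c : F₀) = ι (d : F₀) * ι ((c : F₀) / d) := by
            rw [← map_mul]
            congr 1
            field_simp
          rw [e]
          exact mul_mem_rad (hBR d d.2) h2
        obtain ⟨e, f, hf, hcf⟩ := hgen c hc
        have hvf : Ow.valuation (f : F₀) = 1 := val_eq_one_of_notMem_belowIdeal ι hW hR hle hBR hf
        have hf0 : (f : F₀) ≠ 0 := ne_zero_of_val_eq_one hvf
        have h3 := val_lt_of_mem_span hU hB hcf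
        push_cast at h3
        have hfd : f * d ∉ belowIdeal ι hR hBR := fun hmem =>
          (Ideal.IsPrime.mem_or_mem inferInstance hmem).elim hf hd
        refine ⟨ι (((e : B₀) : F₀) / ((f * d : B₀) : F₀)), hquot e (f * d) hfd, ?_⟩
        rw [← map_mul, ← map_sub, comap_val_lt ι hW]
        push_cast
        have e2 : y₀ - (e : F₀) / (f * d) * t₀ =
            (y₀ - (c : F₀) / d) + ((c : F₀) * f - t₀ * e) / (f * d) := by
          field_simp
          ring
        rw [e2]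
        refine lt_of_le_of_lt (Valuation.map_add _ _ _) (max_lt h ?_)
        rw [map_div₀, map_mul, hvf, hvd, mul_one, div_one]
        exact h3
      · -- impossible
        exfalso
        have h1 : ι y₀ * ι ((c : F₀) / d) ∈ rad R := by
          rw [mul_comm]
          exact mul_mem_rad hηR hyrad
        have h2 : RUnit R (1 - ι y₀ * ι ((c : F₀) / d)) := by
          refine (runit_or_mem_rad (R.sub_mem R.one_mem h1.1)).resolve_right fun h3 => ?_
          have h4 := hR.add_rad _ h3 _ h1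
          rw [sub_add_cancel] at h4
          exact h4.2 (RUnit.one R)
        have h3 := h2.val_eq_one hle
        have e : 1 - ι y₀ * ι ((c : F₀) / d) = ι (y₀ * (y₀⁻¹ - (c : F₀) / d)) := by
          rw [mul_sub, mul_inv_cancel₀ hy0, map_sub, map_one, map_mul]
        rw [e, comap_val_eq ι hW, map_mul, (comap_val_eq ι hW _).mp heq, one_mul] at h3
        rw [h3] at h
        exact lt_irrefl _ h

end Fermat.Agent.BAD.Model
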