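/-
Project BAD, layer L-MOD, block INPUT, node IN-2 (owner helper162): Seidenberg's `u, u⁻¹` lemma for
an integrally closed local ring (Kaplansky, Commutative rings, Theorem 67).
-/
import Mathlib
import Fermat.Agent.S36.BP.Defs
import Fermat.Agent.S36.BP.Normal

set_option autoImplicit false

noncomputable section

namespace Fermat.Agent.BAD.Model

open Fermat.Agent.S18 Fermat.Agent.S36.BP IntermediateField Polynomial

/-- Seidenberg's lemma, abstract form: `R'` local, integrally closed in the field `F`. -/
theorem mem_range_or_inv_mem_range_of_aeval_eq_zero {R' F : Type*} [CommRing R'] [IsLocalRing R']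
    [Field F] [Algebra R' F]
    (hic : ∀ y : F, IsIntegral R' y → y ∈ Set.range (algebraMap R' F)) (n : ℕ) :
    ∀ p : R'[X], p.natDegree ≤ n → (∃ i, IsUnit (p.coeff i)) → ∀ y : F, aeval y p = 0 →
      y ∈ Set.range (algebraMap R' F) ∨ y⁻¹ ∈ Set.range (algebraMap R' F) := by
  induction n with
  | zero =>
    intro p hp hu y hy
    exfalso
    obtain ⟨i, hi⟩ := hu
    rw [eq_C_of_natDegree_le_zero hp] at hy hi
    rw [coeff_C] at hi
    split_ifs at hi with h0
    · rw [aeval_C] at hy
      exact (hi.map (algebraMap R' F)).ne_zero hy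
    · exact not_isUnit_zero hi
  | succ n ih =>
    intro p hp hu y hy
    rcases Nat.lt_or_ge p.natDegree (n + 1) with hlt | hge
    · exact ih p (by omega) hu y hy
    have hdeg : p.natDegree = n + 1 := le_antisymm hp hge
    by_cases ha : IsUnit p.leadingCoeff
    · -- `y` is integral
      left
      obtain ⟨u, hu'⟩ := ha
      apply hic
      refine ⟨p * C ((u⁻¹ : R'ˣ) : R'), monic_mul_C_of_leadingCoeff_mul_eq_one (by
        rw [← hu']; exact u.mul_inv), ?_⟩
      rw [← aeval_def, map_mul, hy, zero_mul]
    · obtain ⟨c, hc⟩ := hic _ (isIntegral_leadingCoeff_smul p y hy)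
      rw [Algebra.smul_def] at hc
      set p₁ : R'[X] := p.eraseLead + C c * X ^ n with hp₁
      have hy₁ : aeval y p₁ = 0 := by
        have h1 : aeval y (p.eraseLead + C p.leadingCoeff * X ^ p.natDegree) = 0 := by
          rw [eraseLead_add_C_mul_X_pow, hy]
        rw [hp₁, map_add, map_mul, aeval_C, map_pow, aeval_X, hc]
        rw [map_add, map_mul, aeval_C, map_pow, aeval_X, hdeg, pow_succ] at h1
        rw [← h1]; ring
      have hdeg₁ : p₁.natDegree ≤ n := by
        refine (natDegree_add_le _ _).trans (max_le ?_ (natDegree_C_mul_X_pow_le _ _))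
        exact (eraseLead_natDegree_le p).trans (by omega)
      have hcoeff : ∀ i, i ≠ n + 1 → p₁.coeff i = p.coeff i + if i = n then c else 0 := by
        intro i hi
        rw [hp₁, coeff_add, coeff_C_mul_X_pow, eraseLead_coeff_of_ne _ (by rw [hdeg]; exact hi)]
      obtain ⟨i, hi⟩ := hu
      have hi1 : i ≠ n + 1 := by
        rintro rfl
        apply ha
        rwa [leadingCoeff, hdeg]
      by_cases hin : i = n
      · subst hin
        by_cases hunit : IsUnit (p.coeff i + c)
        · exact ih p₁ hdeg₁ ⟨i, by rw [hcoeff i hi1, if_pos rfl]; exact hunit⟩ y hy₁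
        · right
          have h2 : IsUnit ((p.coeff i + c) + (-c)) := by simpa using hi
          have hcu : IsUnit c := by
            rcases IsLocalRing.isUnit_or_isUnit_of_isUnit_add h2 with h3 | h3
            · exact absurd h3 hunit
            · exact (IsUnit.neg_iff c).mp h3
          obtain ⟨v, rfl⟩ := hcu
          refine ⟨p.leadingCoeff * ((v⁻¹ : R'ˣ) : R'), ?_⟩
          have hv : algebraMap R' F (v : R') * algebraMap R' F ((v⁻¹ : R'ˣ) : R') = 1 := by
            rw [← map_mul, v.mul_inv, map_one]
          have hv0 : algebraMap R' F (v : R') ≠ 0 := left_ne_zero_of_mul_eq_one hv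
          have hy0 : y ≠ 0 := by
            rintro rfl
            rw [mul_zero] at hc
            exact hv0 hc
          rw [map_mul]
          refine eq_inv_of_mul_eq_one_left ?_
          calc algebraMap R' F p.leadingCoeff * algebraMap R' F ((v⁻¹ : R'ˣ) : R') * y
              = (algebraMap R' F p.leadingCoeff * y) * algebraMap R' F ((v⁻¹ : R'ˣ) : R') := by ring
            _ = 1 := by rw [← hc, hv]
      · exact ih p₁ hdeg₁ ⟨i, by rw [hcoeff i hi1, if_neg hin, add_zero]; exact hi⟩ y hy₁

variable {K₀ F : Type*} [Field K₀] [Field F] [Algebra K₀ F]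
variable {A₀ : ValuationSubring K₀} {q : ℕ} {x : F} {V : Fin 3 → ValuationSubring F} {ϖm : F}
variable {R : Subring F} {c : ℕ → ℕ → K₀} {S S' T s s' s'' : F}

/-- Seidenberg's `u, u⁻¹` lemma: if `y` is a root of a polynomial over the integrally closed local
ring `R` one of whose coefficients is a unit, then `y ∈ R` or `y⁻¹ ∈ R`. -/
theorem mem_or_inv_mem_of_aeval_eq_zero (hR : IsPt A₀ R) {y : F} (p : F[X])
    (hp : ∀ i, p.coeff i ∈ R) (hu : ∃ i, RUnit R (p.coeff i)) (h : p.eval y = 0) :
    y ∈ R ∨ y⁻¹ ∈ R := by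
  have := hR.isLocalRing
  have hsub : (↑p.coeffs : Set F) ⊆ R := by
    intro z hz
    obtain ⟨i, -, rfl⟩ := Polynomial.mem_coeffs_iff.mp hz
    exact hp i
  have hrange : ∀ z : F, z ∈ Set.range (algebraMap R F) → z ∈ R := by
    rintro z ⟨r, rfl⟩
    exact r.2
  have key := mem_range_or_inv_mem_range_of_aeval_eq_zero (R' := R) (F := F)
    (fun z hz => ⟨⟨z, hR.intClosed z hz⟩, rfl⟩) _ (p.toSubring R hsub) le_rfl
    (by
      obtain ⟨i, hi⟩ := hu
      refine ⟨i, (isUnit_iff_rUnit _).mpr ?_⟩
      rw [coeff_toSubring]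
      exact hi) y
    (by
      rw [aeval_def, eval₂_eq_eval_map]
      have : (p.toSubring R hsub).map (algebraMap R F) = p := map_toSubring p R hsub
      rw [this, h])
  exact key.imp (hrange _) (hrange _)

end Fermat.Agent.BAD.Model
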